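import Mathlib
import Fermat.Prelude.Def_CuspForm_HeckeAlgebra
import Fermat.Prelude.Thm_ModularForm_sturm_bound_Gamma0
import Fermat.Prelude.Thm_CongruenceSubgroup_one_mem_strictPeriods_Gamma0

set_option autoImplicit false

noncomputable section

namespace Fermat.Agent.S22_helper22

open UpperHalfPlane ModularForm
open scoped MatrixGroups ModularForm Manifold

/-- The subalgebra of endomorphisms whose transpose preserves a lattice of functionals. -/
def stabilizerSubalgebra {V : Type*} [AddCommGroup V] [Module ℂ V]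
    (Λ : Submodule ℤ (Module.Dual ℂ V)) : Subalgebra ℤ (Module.End ℂ V) where
  carrier := {t | ∀ l ∈ Λ, l ∘ₗ t ∈ Λ}
  mul_mem' {a b} ha hb l hl := by
    have : l ∘ₗ (a * b) = (l ∘ₗ a) ∘ₗ b := rfl
    rw [this]
    exact hb _ (ha l hl)
  one_mem' l hl := by
    have : l ∘ₗ (1 : Module.End ℂ V) = l := rfl
    rwa [this]
  add_mem' {a b} ha hb l hl := by
    rw [LinearMap.comp_add]
    exact Λ.add_mem (ha l hl) (hb l hl)
  zero_mem' l hl := by
    rw [LinearMap.comp_zero]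
    exact Λ.zero_mem
  algebraMap_mem' r l hl := by
    have : l ∘ₗ (algebraMap ℤ (Module.End ℂ V) r) = r • l := by
      ext v
      simp
    rw [this]
    exact Λ.smul_mem r hl

theorem mem_stabilizerSubalgebra {V : Type*} [AddCommGroup V] [Module ℂ V]
    (Λ : Submodule ℤ (Module.Dual ℂ V)) (t : Module.End ℂ V) :
    t ∈ stabilizerSubalgebra Λ ↔ ∀ l ∈ Λ, l ∘ₗ t ∈ Λ := Iff.rfl

/-- Transpose action of the stabilizer on the lattice, as a `ℤ`-linear map. -/
def transposeAction {V : Type*} [AddCommGroup V] [Module ℂ V]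
    (Λ : Submodule ℤ (Module.Dual ℂ V)) :
    stabilizerSubalgebra Λ →ₗ[ℤ] (Λ →ₗ[ℤ] Λ) where
  toFun t :=
    { toFun := fun l => ⟨(l : Module.Dual ℂ V) ∘ₗ (t : Module.End ℂ V), t.2 l l.2⟩
      map_add' := fun l l' => Subtype.ext (LinearMap.add_comp _ _ _)
      map_smul' := fun r l => Subtype.ext (by
        ext v
        simp) }
  map_add' t t' := LinearMap.ext fun l => Subtype.ext (LinearMap.comp_add _ _ _)
  map_smul' r t := LinearMap.ext fun l => Subtype.ext (by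
    ext v
    simp)

theorem transposeAction_injective {V : Type*} [AddCommGroup V] [Module ℂ V]
    (Λ : Submodule ℤ (Module.Dual ℂ V))
    (hsep : ∀ v : V, (∀ l ∈ Λ, l v = 0) → v = 0) :
    Function.Injective (transposeAction Λ) := by
  rw [injective_iff_map_eq_zero]
  intro t ht
  apply Subtype.ext
  ext v
  apply hsep
  intro l hl
  have h1 := congrArg (fun φ : Λ →ₗ[ℤ] Λ => ((φ ⟨l, hl⟩ : Λ) : Module.Dual ℂ V) v) ht
  simpa [transposeAction] using h1

theorem finite_stabilizerSubalgebra {V : Type*} [AddCommGroup V] [Module ℂ V]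
    (Λ : Submodule ℤ (Module.Dual ℂ V)) (hfg : Λ.FG)
    (hsep : ∀ v : V, (∀ l ∈ Λ, l v = 0) → v = 0) :
    Module.Finite ℤ (stabilizerSubalgebra Λ) := by
  have h1 : Module.Finite ℤ Λ := Module.Finite.iff_fg.mpr hfg
  have h2 : IsAddTorsionFree (Module.Dual ℂ V) := .of_isTorsionFree ℂ _
  have h3 : Module.Free ℤ Λ := Module.free_of_finite_type_torsion_free'
  have h4 : Module.Finite ℤ (Λ →ₗ[ℤ] Λ) := Module.Finite.linearMap ℤ ℤ Λ Λ
  have h5 : IsNoetherian ℤ (Λ →ₗ[ℤ] Λ) := isNoetherian_of_isNoetherianRing_of_finite ℤ _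
  exact Module.Finite.of_injective (transposeAction Λ) (transposeAction_injective Λ hsep)

theorem finite_adjoin_of_dual_lattice {V : Type*} [AddCommGroup V] [Module ℂ V]
    (𝒢 : Set (Module.End ℂ V)) (Λ : Submodule ℤ (Module.Dual ℂ V)) (hfg : Λ.FG)
    (hstab : ∀ T ∈ 𝒢, ∀ l ∈ Λ, l ∘ₗ T ∈ Λ)
    (hsep : ∀ v : V, (∀ l ∈ Λ, l v = 0) → v = 0) :
    Module.Finite ℤ (Algebra.adjoin ℤ 𝒢) := by
  have h1 := finite_stabilizerSubalgebra Λ hfg hsep
  have h2 : IsNoetherian ℤ (stabilizerSubalgebra Λ) :=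
    isNoetherian_of_isNoetherianRing_of_finite ℤ _
  have hle : Algebra.adjoin ℤ 𝒢 ≤ stabilizerSubalgebra Λ :=
    Algebra.adjoin_le fun T hT => hstab T hT
  exact Module.Finite.of_injective (Subalgebra.inclusion hle).toLinearMap
    (Subalgebra.inclusion_injective hle)

theorem finite_heckeAlgebra_of_dual_lattice (N : ℕ) [NeZero N] (k : ℤ) (S : Set ℕ)
    (Λ : Submodule ℤ (Module.Dual ℂ (CuspForm (CongruenceSubgroup.Gamma0 N) k))) (hfg : Λ.FG)
    (hT : ∀ (ℓ : ℕ) (hℓ : ℓ.Prime) (hℓN : ¬ ℓ ∣ N), ∀ l ∈ Λ, l ∘ₗ CuspForm.heckeTLin k hℓ hℓN ∈ Λ)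
    (hU : ∀ (q : ℕ) (hqN : q ∣ N), q.Prime → ∀ l ∈ Λ, l ∘ₗ CuspForm.heckeULin k hqN ∈ Λ)
    (hsep : ∀ f : CuspForm (CongruenceSubgroup.Gamma0 N) k, (∀ l ∈ Λ, l f = 0) → f = 0) :
    Module.Finite ℤ (CuspForm.heckeAlgebra N k S) := by
  refine finite_adjoin_of_dual_lattice (CuspForm.heckeGenerators N k S) Λ hfg ?_ hsep
  rintro T (⟨ℓ, hℓ, hℓN, -, rfl⟩ | ⟨q, hqN, hq, -, rfl⟩) l hl
  · exact hT ℓ hℓ hℓN l hl
  · exact hU q hqN hq l hl

end Fermat.Agent.S22_helper22
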