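import Mathlib
import Fermat.Prelude.Def_CuspForm_HeckeAlgebra
import Fermat.Prelude.Thm_ModularForm_sturm_bound_Gamma0
import Fermat.Prelude.Thm_CongruenceSubgroup_one_mem_strictPeriods_Gamma0

set_option autoImplicit false

noncomputable section

namespace Fermat.Agent.S22_helper22

open UpperHalfPlane ModularForm
open scoped MatrixGroups ModularForm Manifold

theorem cuspForm_eq_zero_of_nonpos (N : ℕ) [NeZero N] {k : ℤ} (hk : k ≤ 0)
    (f : CuspForm (CongruenceSubgroup.Gamma0 N) k) : f = 0 := by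
  have hmf : (ModularFormClass.modularForm f :
      ModularForm (CongruenceSubgroup.Gamma0 N) k) = 0 := by
    refine ModularForm.sturm_bound_Gamma0 N _ fun n hn => ?_
    have h0 : (k * ((CongruenceSubgroup.Gamma0 N).index : ℤ)).toNat = 0 := by
      rw [Int.toNat_eq_zero]
      exact mul_nonpos_of_nonpos_of_nonneg hk (Int.natCast_nonneg _)
    rw [h0, Nat.zero_div, Nat.le_zero] at hn
    subst hn
    exact CuspFormClass.qExpansion_coeff_zero f one_pos
      (CongruenceSubgroup.one_mem_strictPeriods_Gamma0 N)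
  have hcoe : (⇑f : ℍ → ℂ) = 0 := by
    have := congrArg (fun F : ModularForm (CongruenceSubgroup.Gamma0 N) k => (⇑F : ℍ → ℂ)) hmf
    simpa using this
  exact DFunLike.coe_injective (hcoe.trans (FunLike.coe_zero (F := CuspForm (CongruenceSubgroup.Gamma0 N) k)).symm)

theorem neg_one_mem_Gamma0 (N : ℕ) :
    (-1 : GL (Fin 2) ℝ) ∈ (CongruenceSubgroup.Gamma0 N : Subgroup (GL (Fin 2) ℝ)) := by
  refine ⟨-1, ?_, ?_⟩
  · show (-1 : SL(2, ℤ)) ∈ CongruenceSubgroup.Gamma0 N
    rw [CongruenceSubgroup.Gamma0_mem]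
    simp
  · ext i j
    fin_cases i <;> fin_cases j <;> simp

theorem cuspForm_eq_zero_of_odd (N : ℕ) {k : ℤ} (hk : Odd k)
    (f : CuspForm (CongruenceSubgroup.Gamma0 N) k) : f = 0 := by
  have hmf : (ModularFormClass.modularForm f :
      ModularForm (CongruenceSubgroup.Gamma0 N) k) = 0 :=
    ModularForm.eq_zero_of_neg_one_mem (neg_one_mem_Gamma0 N) hk _
  have hcoe : (⇑f : ℍ → ℂ) = 0 := by
    have := congrArg (fun F : ModularForm (CongruenceSubgroup.Gamma0 N) k => (⇑F : ℍ → ℂ)) hmf
    simpa using this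
  exact DFunLike.coe_injective
    (hcoe.trans (FunLike.coe_zero (F := CuspForm (CongruenceSubgroup.Gamma0 N) k)).symm)

theorem cuspForm_subsingleton_of_lt_two (N : ℕ) [NeZero N] {k : ℤ} (hk : k < 2) :
    Subsingleton (CuspForm (CongruenceSubgroup.Gamma0 N) k) := by
  refine ⟨fun f g => ?_⟩
  have key : ∀ f : CuspForm (CongruenceSubgroup.Gamma0 N) k, f = 0 := by
    intro f
    rcases le_or_gt k 0 with h0 | h0
    · exact cuspForm_eq_zero_of_nonpos N h0 f
    · have h1 : k = 1 := by omega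
      subst h1
      exact cuspForm_eq_zero_of_odd N odd_one f
  rw [key f, key g]

theorem finite_heckeAlgebra_of_subsingleton (N : ℕ) [NeZero N] (k : ℤ) (S : Set ℕ)
    [Subsingleton (CuspForm (CongruenceSubgroup.Gamma0 N) k)] :
    Module.Finite ℤ (CuspForm.heckeAlgebra N k S) := by
  have : Subsingleton (Module.End ℂ (CuspForm (CongruenceSubgroup.Gamma0 N) k)) :=
    ⟨fun a b => LinearMap.ext fun x => Subsingleton.elim _ _⟩
  have : Subsingleton (CuspForm.heckeAlgebra N k S) :=
    ⟨fun a b => Subtype.ext (Subsingleton.elim _ _)⟩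
  exact Module.Finite.of_surjective (0 : ℤ →ₗ[ℤ] CuspForm.heckeAlgebra N k S)
    fun y => ⟨0, Subsingleton.elim _ _⟩

theorem finite_heckeAlgebra_of_lt_two (N : ℕ) [NeZero N] {k : ℤ} (hk : k < 2) (S : Set ℕ) :
    Module.Finite ℤ (CuspForm.heckeAlgebra N k S) := by
  have := cuspForm_subsingleton_of_lt_two N hk
  exact finite_heckeAlgebra_of_subsingleton N k S

end Fermat.Agent.S22_helper22
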